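import Mathlib
import Fermat.Agent.Conn.Aug

/-!
# Averaging over the kernel of reduction

`H` is a Hopf order on `V` over the ring of integers of an absolutely unramified field, and `L` is
a subgroup of the kernel of reduction all of whose subgroups are stable. The average over `L`
preserves `H`.
-/

set_option autoImplicit false
set_option linter.unusedSectionVars false
set_option linter.style.haveILetI false

noncomputable section

namespace Fermat.Agent.FO

open Module Fermat.Agent.Flat Fermat.Agent.Conn

variable {G Ω : Type*} [Field Ω] [Group G] [MulSemiringAction G Ω] {A : ValuationSubring Ω} {p : ℕ}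

section Val

theorem smul_mem_A (hU : Unr G A p) (g : G) {a : Ω} (ha : a ∈ A) : g • a ∈ A := by
  have h1 := hU.res g a ha
  have h2 : g • a - a ∈ A := (A.valuation_le_one_iff _).mp h1.le
  have h3 := A.add_mem _ _ h2 ha
  rwa [sub_add_cancel] at h3

theorem val_smul_mono (hU : Unr G A p) (g : G) {x y : Ω} (h : A.valuation x ≤ A.valuation y) :
    A.valuation (g • x) ≤ A.valuation (g • y) := by
  by_cases hy : y = 0
  · rw [hy, map_zero, le_zero_iff, map_eq_zero] at h
    rw [h, hy]
  · have h1 : x / y ∈ A := by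
      rw [← A.valuation_le_one_iff, map_div₀]
      exact div_le_one_of_le₀ h zero_le
    have h2 : x = y * (x / y) := by field_simp
    rw [h2, smul_mul', map_mul]
    exact mul_le_of_le_one_right' ((A.valuation_le_one_iff _).mpr (smul_mem_A hU g h1))

theorem val_smul_strictMono (hU : Unr G A p) (g : G) {x y : Ω}
    (h : A.valuation x < A.valuation y) : A.valuation (g • x) < A.valuation (g • y) := by
  by_contra hle
  rw [not_lt] at hle
  have h1 := val_smul_mono hU g⁻¹ hle
  rw [inv_smul_smul, inv_smul_smul] at h1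
  exact absurd h (not_lt.mpr h1)

theorem val_smul_eq (hU : Unr G A p) (g : G) {c : Ω} {m : ℕ} (hm : 0 < m)
    (h : g ^ m • c = c) : A.valuation (g • c) = A.valuation c := by
  rcases lt_trichotomy (A.valuation (g • c)) (A.valuation c) with h1 | h1 | h1
  · exfalso
    have h2 : ∀ k : ℕ, A.valuation (g ^ (k + 1) • c) < A.valuation c := by
      intro k
      induction k with
      | zero => rw [zero_add, pow_one]; exact h1
      | succ k ih =>
        rw [pow_succ', mul_smul]
        exact (val_smul_strictMono hU g ih).trans h1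
    obtain ⟨k, rfl⟩ := Nat.exists_eq_succ_of_ne_zero hm.ne'
    have h3 := h2 k
    rw [h] at h3
    exact lt_irrefl _ h3
  · exact h1
  · exfalso
    have h2 : ∀ k : ℕ, A.valuation c < A.valuation (g ^ (k + 1) • c) := by
      intro k
      induction k with
      | zero => rw [zero_add, pow_one]; exact h1
      | succ k ih =>
        rw [pow_succ', mul_smul]
        exact h1.trans (val_smul_strictMono hU g ih)
    obtain ⟨k, rfl⟩ := Nat.exists_eq_succ_of_ne_zero hm.ne'
    have h3 := h2 k
    rw [h] at h3
    exact lt_irrefl _ h3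

end Val

section OrderP

variable {V : Type*} [AddCommGroup V] [DistribMulAction G V]

/-- the valuation of the parameter -/
theorem pow_le_p [Finite V] (hU : Unr G A p) {H : Subalgebra (fixA G A) (V → Ω)}
    (hH : IsHopfOrder (fixA G A) G H) {v : V} (hv0 : v ≠ 0) (hpv : p • v = 0)
    (hst : ∀ g : G, g • v ∈ AddSubgroup.zmultiples v) {f₀ : V → Ω} (hf₀ : f₀ ∈ H)
    (hc1 : A.valuation (f₀ v) < 1) :
    A.valuation (f₀ v) ^ (p - 1) ≤ A.valuation (p : Ω) := by
  classical
  set c := f₀ v with hc
  have hfin : (MulAction.orbit G v).Finite := Set.toFinite _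
  set O : Finset V := hfin.toFinset with hO
  have hmemO : ∀ x, x ∈ O ↔ x ∈ MulAction.orbit G v := fun x => by
    rw [hO, Set.Finite.mem_toFinset]
  have hvO : v ∈ O := (hmemO v).mpr (MulAction.mem_orbit_self v)
  -- all values have the same valuation
  have hval : ∀ x ∈ O, A.valuation (f₀ x) = A.valuation c := by
    intro x hx
    obtain ⟨g, rfl⟩ := (hmemO x).mp hx
    change A.valuation (f₀ (g • v)) = _
    rw [hH.equiv g f₀ hf₀]
    -- a power of `g` fixes `v`
    obtain ⟨i, j, hij, hne⟩ : ∃ i j : ℕ, i < j ∧ g ^ i • v = g ^ j • v := by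
      obtain ⟨i, j, hij, h⟩ := Finite.exists_ne_map_eq_of_infinite (fun i : ℕ => g ^ i • v)
      rcases lt_or_gt_of_ne hij with h1 | h1
      · exact ⟨i, j, h1, h⟩
      · exact ⟨j, i, h1, h.symm⟩
    have h1 : g ^ (j - i) • v = v := by
      have h2 : g ^ j = g ^ i * g ^ (j - i) := by rw [← pow_add]; congr 1; omega
      rw [h2, mul_smul] at hne
      exact (smul_left_cancel _ hne).symm
    refine val_smul_eq hU g (m := j - i) (by omega) ?_
    rw [← hH.equiv _ f₀ hf₀, h1]
  -- the norm
  set N := ∏ x ∈ O, f₀ x with hN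
  have hfix : ∀ g : G, g • N = N := by
    intro g
    rw [hN, Finset.smul_prod']
    refine Finset.prod_bij' (fun x _ => g • x) (fun x _ => g⁻¹ • x) ?_ ?_ ?_ ?_ ?_
    · intro x hx
      rw [hmemO] at hx ⊢
      exact (MulAction.mem_orbit_iff.mp hx).elim fun h hh => ⟨g * h, by
        change (g * h) • v = g • x
        rw [mul_smul, hh]⟩
    · intro x hx
      rw [hmemO] at hx ⊢
      exact (MulAction.mem_orbit_iff.mp hx).elim fun h hh => ⟨g⁻¹ * h, by
        change (g⁻¹ * h) • v = g⁻¹ • x
        rw [mul_smul, hh]⟩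
    · intro x _
      exact inv_smul_smul g x
    · intro x _
      exact smul_inv_smul g x
    · intro x _
      exact (hH.equiv g f₀ hf₀ x).symm
  have hNval : A.valuation N = A.valuation c ^ O.card := by
    rw [hN, map_prod, Finset.prod_congr rfl hval, Finset.prod_const]
  have hcard0 : O.card ≠ 0 := Finset.card_ne_zero_of_mem hvO
  have hN1 : A.valuation N < 1 := by
    rw [hNval]
    exact pow_lt_one₀ zero_le hc1 hcard0
  have h1 := hU.le N hfix hN1
  rw [hNval] at h1
  refine le_trans (pow_le_pow_of_le_one zero_le hc1.le ?_) h1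
  -- the cardinality of the orbit
  have h2 : O ⊆ (Finset.Ico 1 p).image (fun k : ℕ => k • v) := by
    intro x hx
    obtain ⟨g, rfl⟩ := (hmemO x).mp hx
    obtain ⟨z, hz⟩ := AddSubgroup.mem_zmultiples_iff.mp (hst g)
    rw [Finset.mem_image]
    have hp0 : (p : ℤ) ≠ 0 := by exact_mod_cast hU.prime.ne_zero
    have hz1 : (z % p).toNat • v = z • v := by
      rw [← natCast_zsmul, Int.toNat_of_nonneg (Int.emod_nonneg _ hp0)]
      conv_rhs => rw [← Int.emod_add_mul_ediv z p]
      rw [add_smul, mul_comm, mul_smul, natCast_zsmul, hpv, smul_zero, add_zero]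
    refine ⟨(z % p).toNat, ?_, ?_⟩
    · rw [Finset.mem_Ico]
      constructor
      · by_contra hlt
        have h3 : (z % p).toNat = 0 := by omega
        rw [h3, zero_smul] at hz1
        rw [← hz1] at hz
        have h4 : g • v = 0 := hz.symm
        rw [smul_eq_zero_iff_eq] at h4
        exact hv0 h4
      · have := Int.emod_lt_of_pos z (by have := hU.prime.pos; omega : (0 : ℤ) < p)
        omega
    · change (z % p).toNat • v = g • v
      rw [hz1, hz]
  calc O.card ≤ _ := Finset.card_le_card h2
    _ ≤ (Finset.Ico 1 p).card := Finset.card_image_le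
    _ = p - 1 := by rw [Nat.card_Ico]

theorem sum_choose (n j : ℕ) : ∑ k ∈ Finset.range n, k.choose j = n.choose (j + 1) := by
  induction n with
  | zero => simp
  | succ n ih => rw [Finset.sum_range_succ, ih, Nat.choose_succ_succ, add_comm]

/-- sums over the multiples of `v` are divisible by `p` -/
theorem sum_le_p [Finite V] (hU : Unr G A p) {H : Subalgebra (fixA G A) (V → Ω)}
    (hH : IsHopfOrder (fixA G A) G H) (hval : ∀ f ∈ H, ∀ w, f w ∈ A)
    {v : V} (hv0 : v ≠ 0) (hpv : p • v = 0)
    (hst : ∀ g : G, g • v ∈ AddSubgroup.zmultiples v) (hred : v ∈ red A H) {f : V → Ω}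
    (hf : f ∈ H) (w : V) :
    A.valuation (∑ k ∈ Finset.range p, f (w + k • v)) ≤ A.valuation (p : Ω) := by
  obtain ⟨f₀, hf₀, h00, hc⟩ := exists_min' hH hval v
  have hc1 : A.valuation (f₀ v) < 1 := by
    have := (mem_red_iff hH hval).mp hred f₀ hf₀
    rwa [h00, sub_zero] at this
  have h1 := pow_le_p hU hH hv0 hpv hst hf₀ hc1
  choose g hg hgm using fun m => HA_iter hH hc m (Submodule.subset_span hf : f ∈ HA A H)
  have hp0 := hU.prime.pos
  have h2 : ∀ k ∈ Finset.range p, f (w + k • v) =
      ∑ j ∈ Finset.range p, (k.choose j : Ω) * (f₀ v ^ j * g j w) := by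
    intro k hk
    rw [Finset.mem_range] at hk
    have h3 := shift_eq_sum_fwdDiff_iter v f k w
    rw [h3]
    have h4 : Finset.range (k + 1) ⊆ Finset.range p := by
      intro x hx
      rw [Finset.mem_range] at hx ⊢
      omega
    rw [← Finset.sum_subset h4]
    · refine Finset.sum_congr rfl fun j _ => ?_
      rw [hgm j, nsmul_eq_mul]
      rfl
    · intro j _ hj
      rw [Finset.mem_range, not_lt] at hj
      rw [Nat.choose_eq_zero_of_lt (by omega), Nat.cast_zero, zero_mul]
  rw [Finset.sum_congr rfl h2, Finset.sum_comm]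
  have h3 : ∀ j ∈ Finset.range p, ∑ k ∈ Finset.range p, (k.choose j : Ω) * (f₀ v ^ j * g j w) =
      ((p.choose (j + 1) : ℕ) : Ω) * (f₀ v ^ j * g j w) := by
    intro j _
    rw [← Finset.sum_mul, ← sum_choose, Nat.cast_sum]
  rw [Finset.sum_congr rfl h3]
  refine Valuation.map_sum_le _ fun j hj => ?_
  rw [Finset.mem_range] at hj
  have hgA : A.valuation (g j w) ≤ 1 := (A.valuation_le_one_iff _).mpr (HA_val hval (hg j) w)
  rw [map_mul, map_mul, map_pow]
  rcases Nat.lt_or_ge (j + 1) p with hjp | hjp
  · obtain ⟨m, hm⟩ := hU.prime.dvd_choose_self (by omega : j + 1 ≠ 0) hjp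
    rw [hm, Nat.cast_mul, map_mul, mul_assoc]
    refine mul_le_of_le_one_right' ?_
    exact mul_le_one' (valuation_natCast_le A m)
      (mul_le_one' (pow_le_one₀ zero_le hc1.le) hgA)
  · have hj1 : j = p - 1 := by omega
    have h4 : A.valuation ((p.choose (j + 1) : ℕ) : Ω) ≤ 1 := valuation_natCast_le A _
    refine (mul_le_of_le_one_left' h4).trans ?_
    refine (mul_le_of_le_one_right' hgA).trans ?_
    rw [hj1]
    exact h1

end OrderP

end Fermat.Agent.FO
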