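import Mathlib
import Fermat.Agent.FO.Avg

/-!
# Averaging over the kernel of reduction: the general case
-/

set_option autoImplicit false
set_option linter.unusedSectionVars false
set_option linter.style.haveILetI false

noncomputable section

namespace Fermat.Agent.FO

open Module Fermat.Agent.Flat Fermat.Agent.Conn

section Tr

variable {Ω V V' : Type*} [Field Ω] [CharZero Ω] [AddCommGroup V] [Finite V] [AddCommGroup V']
  [Finite V']

/-- the average over a subgroup -/
def tr (L : AddSubgroup V) (f : V → Ω) (w : V) : Ω :=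
  (Nat.card L : Ω)⁻¹ * ∑ᶠ x : L, f (w + x)

theorem tr_eq (L : AddSubgroup V) [Fintype L] (f : V → Ω) (w : V) :
    tr L f w = (Nat.card L : Ω)⁻¹ * ∑ x : L, f (w + x) := by
  rw [tr, finsum_eq_sum_of_fintype]

theorem card_ne (L : AddSubgroup V) : (Nat.card L : Ω) ≠ 0 := by
  exact_mod_cast Nat.card_pos.ne'

theorem tr_bot (f : V → Ω) : tr (⊥ : AddSubgroup V) f = f := by
  classical
  haveI := Fintype.ofFinite (⊥ : AddSubgroup V)
  funext w
  rw [tr_eq, AddSubgroup.card_bot, Nat.cast_one, inv_one, one_mul, Fintype.sum_unique]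
  congr 1
  exact add_zero w

theorem tr_add_mem (L : AddSubgroup V) (f : V → Ω) (w : V) {x : V} (hx : x ∈ L) :
    tr L f (w + x) = tr L f w := by
  haveI := Fintype.ofFinite L
  rw [tr_eq, tr_eq]
  congr 1
  refine Fintype.sum_equiv (Equiv.addLeft (⟨x, hx⟩ : L)) _ _ fun y => ?_
  change f (w + x + y) = f (w + (x + y))
  rw [add_assoc]

theorem tr_of_inv (L : AddSubgroup V) {f : V → Ω} (hf : ∀ w, ∀ x ∈ L, f (w + x) = f w) :
    tr L f = f := by
  haveI := Fintype.ofFinite L
  funext w
  rw [tr_eq, Finset.sum_congr rfl fun (x : L) _ => hf w x x.2, Finset.sum_const, Finset.card_univ,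
    ← Nat.card_eq_fintype_card, nsmul_eq_mul, inv_mul_cancel_left₀ (card_ne L)]

/-- transitivity -/
theorem tr_tr {B L : AddSubgroup V} (h : B ≤ L) (f : V → Ω) : tr L (tr B f) = tr L f := by
  haveI := Fintype.ofFinite L
  haveI := Fintype.ofFinite B
  funext w
  rw [tr_eq, tr_eq]
  congr 1
  have h1 : ∀ x : L, tr B f (w + x) = (Nat.card B : Ω)⁻¹ * ∑ y : B, f (w + x + y) := fun x =>
    tr_eq B f _
  rw [Finset.sum_congr rfl fun x _ => h1 x, ← Finset.mul_sum, Finset.sum_comm]
  have h2 : ∀ y : B, ∑ x : L, f (w + x + y) = ∑ x : L, f (w + x) := by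
    intro y
    refine Fintype.sum_equiv (Equiv.addRight (⟨y, h y.2⟩ : L)) _ _ fun x => ?_
    change f (w + x + y) = f (w + (x + y))
    rw [add_assoc]
  rw [Finset.sum_congr rfl fun y _ => h2 y, Finset.sum_const, Finset.card_univ,
    ← Nat.card_eq_fintype_card, nsmul_eq_mul, inv_mul_cancel_left₀ (card_ne B)]

/-- averages and quotients -/
theorem tr_map (L : AddSubgroup V) (φ : V →+ V') (g : V' → Ω) (w : V) :
    tr L (fun v => g (φ v)) w = tr (L.map φ) g (φ w) := by
  haveI := Fintype.ofFinite L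
  haveI := Fintype.ofFinite (L.map φ)
  have h1 : ∀ y : L.map φ, ∑ x : L, g (φ (w + x) + y) = ∑ x : L, g (φ (w + x)) := by
    rintro ⟨_, ⟨y, hy, rfl⟩⟩
    refine Fintype.sum_equiv (Equiv.addRight (⟨y, hy⟩ : L)) _ _ fun x => ?_
    change g (φ (w + x) + φ y) = g (φ (w + (x + y)))
    rw [← map_add, add_assoc]
  have h2 : ∀ x : L, ∑ y : L.map φ, g (φ (w + x) + y) = ∑ y : L.map φ, g (φ w + y) := by
    intro x
    refine Fintype.sum_equiv (Equiv.addLeft (⟨φ x, ⟨x, x.2, rfl⟩⟩ : L.map φ)) _ _ fun y => ?_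
    change g (φ (w + x) + y) = g (φ w + (φ x + y))
    rw [map_add, add_assoc]
  have h3 : ∑ y : L.map φ, ∑ x : L, g (φ (w + x) + y) = ∑ x : L, ∑ y : L.map φ, g (φ (w + x) + y) :=
    Finset.sum_comm
  rw [Finset.sum_congr rfl fun y _ => h1 y, Finset.sum_congr rfl fun x _ => h2 x,
    Finset.sum_const, Finset.sum_const, Finset.card_univ, Finset.card_univ,
    ← Nat.card_eq_fintype_card, ← Nat.card_eq_fintype_card, nsmul_eq_mul, nsmul_eq_mul] at h3
  rw [tr_eq, tr_eq]
  have h4 : (Nat.card L : Ω) ≠ 0 := card_ne L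
  have h5 : (Nat.card (L.map φ) : Ω) ≠ 0 := card_ne _
  field_simp
  linear_combination h3

/-- the average over a cyclic group -/
theorem tr_zmultiples (v : V) (f : V → Ω) (w : V) :
    tr (AddSubgroup.zmultiples v) f w =
      (addOrderOf v : Ω)⁻¹ * ∑ k ∈ Finset.range (addOrderOf v), f (w + k • v) := by
  haveI := Fintype.ofFinite (AddSubgroup.zmultiples v)
  rw [tr_eq, Nat.card_zmultiples, Finset.sum_range]
  congr 1
  symm
  refine Fintype.sum_equiv (finEquivZMultiples (isOfFinAddOrder_of_finite v)) _ _ fun k => ?_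
  rw [finEquivZMultiples_apply]

end Tr

section Step

variable {G Ω : Type*} [Field Ω] [CharZero Ω] [Group G] [MulSemiringAction G Ω]
  {A : ValuationSubring Ω} {p : ℕ}

/-- if averages at zero are integral, then the average preserves the Hopf order -/
theorem tr_mem_of_zero {V : Type*} [AddCommGroup V] [Finite V] [DistribMulAction G V]
    {H : Subalgebra (fixA G A) (V → Ω)} (hH : IsHopfOrder (fixA G A) G H) (L : AddSubgroup V)
    (hL : ∀ g : G, ∀ x ∈ L, g • x ∈ L) (h0 : ∀ f ∈ H, tr L f 0 ∈ A) {f : V → Ω} (hf : f ∈ H) :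
    tr L f ∈ H := by
  haveI := Fintype.ofFinite L
  obtain ⟨n, a, b, ha, hb, h⟩ := mem_tens₂_iff.mp (hH.comul f hf)
  have h' : ∀ x y, f (x + y) = ∑ i, a i x * b i y := h
  have hr : ∀ i, tr L (b i) 0 ∈ fixA G A := by
    intro i
    refine ⟨h0 _ (hb i), fun g => ?_⟩
    rw [tr_eq, smul_mul', smul_inv₀', Finset.smul_sum]
    have hc : g • (Nat.card L : Ω) = (Nat.card L : Ω) := map_natCast (MulSemiringAction.toRingHom G Ω g) _
    rw [hc]
    congr 1
    refine Finset.sum_bij' (fun (x : L) _ => (⟨g • (x : V), hL g x x.2⟩ : L))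
      (fun (x : L) _ => (⟨g⁻¹ • (x : V), hL g⁻¹ x x.2⟩ : L)) (fun _ _ => Finset.mem_univ _)
      (fun _ _ => Finset.mem_univ _) ?_ ?_ ?_
    · intro x _
      exact Subtype.ext (inv_smul_smul g (x : V))
    · intro x _
      exact Subtype.ext (smul_inv_smul g (x : V))
    · intro x _
      change g • b i (0 + x) = b i (0 + g • (x : V))
      rw [zero_add, zero_add, hH.equiv g _ (hb i)]
  have h1 : tr L f = ∑ i, (⟨tr L (b i) 0, hr i⟩ : fixA G A) • a i := by
    funext w
    rw [tr_eq, Finset.sum_apply, Finset.sum_congr rfl fun (x : L) _ => h' w x, Finset.sum_comm,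
      Finset.mul_sum]
    refine Finset.sum_congr rfl fun i _ => ?_
    rw [Pi.smul_apply, Algebra.smul_def]
    change _ = tr L (b i) 0 * a i w
    rw [tr_eq, ← Finset.mul_sum]
    simp only [zero_add]
    ring
  rw [h1]
  exact sum_mem fun i _ => H.smul_mem (ha i) _

/-- the action on a quotient -/
@[reducible] def quoAct {V : Type*} [AddCommGroup V] [DistribMulAction G V] (B : AddSubgroup V)
    (hB : ∀ g : G, ∀ x ∈ B, g • x ∈ B) : DistribMulAction G (V ⧸ B) where
  smul g := QuotientAddGroup.map B B (DistribSMul.toAddMonoidHom V g) fun x hx => hB g x hx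
  one_smul x := by
    obtain ⟨y, rfl⟩ := QuotientAddGroup.mk'_surjective B x
    change QuotientAddGroup.mk' B ((1 : G) • y) = _
    rw [one_smul]
  mul_smul g h x := by
    obtain ⟨y, rfl⟩ := QuotientAddGroup.mk'_surjective B x
    change QuotientAddGroup.mk' B ((g * h) • y) = QuotientAddGroup.mk' B (g • h • y)
    rw [mul_smul]
  smul_zero g := map_zero (QuotientAddGroup.map B B (DistribSMul.toAddMonoidHom V g) _)
  smul_add g x y := map_add (QuotientAddGroup.map B B (DistribSMul.toAddMonoidHom V g) _) x y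

/-- **Averages over the kernel of reduction.** -/
theorem tr_mem (hU : Unr G A p) [IsPrincipalIdealRing (fixA G A)] : ∀ (N : ℕ)
    {V : Type*} [AddCommGroup V] [Finite V] [DistribMulAction G V]
    {H : Subalgebra (fixA G A) (V → Ω)} (_ : IsHopfOrder (fixA G A) G H)
    (_ : ∀ f ∈ H, ∀ w, f w ∈ A) (L : AddSubgroup V) (_ : Nat.card L ≤ N)
    (_ : ∀ g : G, ∀ x ∈ L, g • x ∈ AddSubgroup.zmultiples x) (_ : L ≤ red A H) {n : ℕ}
    (_ : ∀ x ∈ L, p ^ n • x = 0) {f : V → Ω} (_ : f ∈ H), tr L f ∈ H := by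
  intro N
  induction N with
  | zero =>
    intro V _ _ _ H hH hval L hN
    exact absurd hN (by have : 0 < Nat.card L := Nat.card_pos; omega)
  | succ N ih =>
    intro V _ _ _ H hH hval L hN hst hred n hpow f hf
    by_cases hbot : L = ⊥
    · rw [hbot, tr_bot]
      exact hf
    -- an element of order `p`
    obtain ⟨v, hvL, hvord⟩ : ∃ v ∈ L, addOrderOf v = p := by
      obtain ⟨x, hx, hx0⟩ : ∃ x ∈ L, x ≠ 0 := by
        obtain ⟨x, hx⟩ := AddSubgroup.ne_bot_iff_exists_ne_zero.mp hbot
        exact ⟨(x : V), x.2, fun h => hx (Subtype.ext h)⟩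
      have h1 : addOrderOf x ∣ p ^ n := addOrderOf_dvd_of_nsmul_eq_zero (hpow x hx)
      obtain ⟨k, hk, hk'⟩ := (Nat.dvd_prime_pow hU.prime).mp h1
      have hk0 : k ≠ 0 := by
        rintro rfl
        rw [pow_zero, AddMonoid.addOrderOf_eq_one_iff] at hk'
        exact hx0 hk'
      refine ⟨p ^ (k - 1) • x, L.nsmul_mem hx _, ?_⟩
      have hpk : p ^ k = p ^ (k - 1) * p := by
        rw [← pow_succ]
        congr 1
        omega
      rw [addOrderOf_nsmul' x (pow_ne_zero _ hU.prime.ne_zero), hk', hpk, Nat.gcd_eq_right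
        (Dvd.intro _ rfl), Nat.mul_div_cancel_left _ (pow_pos hU.prime.pos _)]
    set B := AddSubgroup.zmultiples v with hB
    have hv0 : v ≠ 0 := by
      rintro rfl
      rw [addOrderOf_zero] at hvord
      exact hU.prime.one_lt.ne hvord
    have hpv : p • v = 0 := by rw [← hvord]; exact addOrderOf_nsmul_eq_zero v
    have hBL : B ≤ L := by rw [hB, AddSubgroup.zmultiples_le]; exact hvL
    have hBst : ∀ g : G, ∀ x ∈ B, g • x ∈ B := by
      intro g x hx
      have h1 := hst g x (hBL hx)
      have h2 : AddSubgroup.zmultiples x ≤ B := by rw [AddSubgroup.zmultiples_le]; exact hx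
      exact h2 h1
    -- the average over `B`
    have hTB : tr B f ∈ H := by
      refine tr_mem_of_zero hH B hBst (fun f hf => ?_) hf
      rw [hB, tr_zmultiples, hvord, ← A.valuation_le_one_iff, map_mul, map_inv₀]
      have h1 := sum_le_p hU hH hval hv0 hpv (hst · v hvL) (hred hvL) hf 0
      have h2 : A.valuation (p : Ω) ≠ 0 := (Valuation.ne_zero_iff _).mpr hU.ne_zero
      calc (A.valuation (p : Ω))⁻¹ * _ ≤ (A.valuation (p : Ω))⁻¹ * A.valuation (p : Ω) :=
            mul_le_mul_right h1 _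
        _ = 1 := inv_mul_cancel₀ h2
    -- the quotient
    letI := quoAct B hBst
    have hφ : Function.Surjective (QuotientAddGroup.mk' B) := QuotientAddGroup.mk'_surjective B
    have hGQ : ∀ (g : G) (x : V), QuotientAddGroup.mk' B (g • x) =
        g • QuotientAddGroup.mk' B x := fun g x => rfl
    have hHQ := hopf_quo desc_fixA hH (QuotientAddGroup.mk' B) hφ hGQ
    set HQ : Subalgebra (fixA G A) (V ⧸ B → Ω) :=
      H.comap (pull (fixA G A) (QuotientAddGroup.mk' B)) with hHQdef
    have hmemQ : ∀ f : V ⧸ B → Ω, f ∈ HQ ↔ (fun v => f (QuotientAddGroup.mk' B v)) ∈ H :=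
      fun f => Iff.rfl
    have hvalQ : ∀ f ∈ HQ, ∀ w, f w ∈ A := by
      intro f hf w
      obtain ⟨x, rfl⟩ := hφ w
      exact hval _ ((hmemQ f).mp hf) x
    -- the function on the quotient
    obtain ⟨g, hg⟩ : ∃ g : V ⧸ B → Ω, ∀ w, g (QuotientAddGroup.mk' B w) = tr B f w := by
      refine ⟨fun y => Quotient.liftOn' y (tr B f) fun a b hab => ?_, fun w => rfl⟩
      have h1 : -a + b ∈ B := QuotientAddGroup.leftRel_apply.mp hab
      have h2 : b = a + (-a + b) := by abel
      rw [h2, tr_add_mem B f a h1]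
    have hgH : g ∈ HQ := by
      rw [hmemQ]
      have : (fun v => g (QuotientAddGroup.mk' B v)) = tr B f := funext hg
      rw [this]
      exact hTB
    have hcard : Nat.card (L.map (QuotientAddGroup.mk' B)) ≤ N := by
      have h1 : Nat.card (L.map (QuotientAddGroup.mk' B)) < Nat.card L := by
        let ψ : L → L.map (QuotientAddGroup.mk' B) := fun x => ⟨_, ⟨x, x.2, rfl⟩⟩
        have hψ : Function.Surjective ψ := by
          rintro ⟨_, ⟨x, hx, rfl⟩⟩
          exact ⟨⟨x, hx⟩, rfl⟩
        refine lt_of_le_of_ne (Nat.card_le_card_of_surjective ψ hψ) fun heq => ?_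
        have hψi : Function.Injective ψ := by
          haveI := Fintype.ofFinite L
          haveI := Fintype.ofFinite (L.map (QuotientAddGroup.mk' B))
          rw [Nat.card_eq_fintype_card, Nat.card_eq_fintype_card] at heq
          exact ((Fintype.bijective_iff_surjective_and_card ψ).mpr ⟨hψ, heq.symm⟩).1
        have h2 : ψ ⟨v, hvL⟩ = ψ 0 := by
          apply Subtype.ext
          change QuotientAddGroup.mk' B v = QuotientAddGroup.mk' B 0
          rw [map_zero, QuotientAddGroup.mk'_apply, QuotientAddGroup.eq_zero_iff]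
          exact AddSubgroup.mem_zmultiples v
        have h3 := congrArg Subtype.val (hψi h2)
        exact hv0 h3
      omega
    have h1 := ih hHQ hvalQ (L.map (QuotientAddGroup.mk' B)) hcard ?_ ?_ (n := n) ?_ hgH
    · rw [hmemQ] at h1
      have h2 : (fun w => tr (L.map (QuotientAddGroup.mk' B)) g (QuotientAddGroup.mk' B w)) =
          tr L f := by
        funext w
        rw [← tr_map]
        have h3 : (fun v => g (QuotientAddGroup.mk' B v)) = tr B f := funext hg
        rw [h3, tr_tr hBL]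
      rw [h2] at h1
      exact h1
    · rintro σ _ ⟨x, hx, rfl⟩
      obtain ⟨z, hz⟩ := AddSubgroup.mem_zmultiples_iff.mp (hst σ x hx)
      rw [← hGQ, ← hz, map_zsmul]
      exact AddSubgroup.zsmul_mem_zmultiples _ _
    · rintro _ ⟨x, hx, rfl⟩
      exact mem_red_quo _ hφ (hred hx)
    · rintro _ ⟨x, hx, rfl⟩
      rw [← map_nsmul, hpow x hx, map_zero]

end Step

end Fermat.Agent.FO
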