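import Mathlib
import Fermat.Agent.FO.Tr

/-!
# Extensions of constant groups by multiplicative groups

If `V` is the group of points of a finite flat group over the integers of an absolutely unramified
field, an extension of a trivial Galois module by a subgroup `L` on which the Galois group acts by
the cyclotomic character, then `V` is trivialised by the roots of units.
-/

set_option autoImplicit false
set_option linter.unusedSectionVars false
set_option linter.style.haveILetI false

noncomputable section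

namespace Fermat.Agent.FO

open Module Fermat.Agent.Flat Fermat.Agent.Conn

variable {G Ω : Type*} [Field Ω] [Group G] [MulSemiringAction G Ω]
  {A : ValuationSubring Ω} {p : ℕ}

/-- **Characters belong to every Hopf order.** -/
theorem char_mem [IsPrincipalIdealRing (fixA G A)] {V : Type*} [AddCommGroup V] [Finite V]
    [DistribMulAction G V] {H : Subalgebra (fixA G A) (V → Ω)}
    (hH : IsHopfOrder (fixA G A) G H) {χ : V → Ω} (hmul : ∀ x y, χ (x + y) = χ x * χ y)
    (hG : ∀ (g : G) x, χ (g • x) = g • χ x) : χ ∈ H := by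
  obtain ⟨n, h, hb⟩ := hH.exists_hbasis desc_fixA
  obtain ⟨c, hc⟩ := hb.top χ
  have hcfix : ∀ i, ∀ g : G, g • c i = c i := fun i g =>
    repr_fix hb.li (fun i g v => hH.equiv g _ (hb.mem i) v) hG hc i g
  -- structure constants
  choose a ha hfa using fun i => hb.exists_tens (hH.comul _ (hb.mem i))
  choose γ hγ using fun i k => hb.span (a i k) (ha i k)
  have h1 : ∀ k x, χ x * c k = ∑ i, c i * a i k x := by
    intro k x
    have h2 : ∑ k, (χ x * c k - ∑ i, c i * a i k x) • h k = 0 := by
      funext y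
      have h3 : χ (x + y) = ∑ i, c i * ∑ k, a i k x * h k y := by
        rw [hc, Finset.sum_apply]
        refine Finset.sum_congr rfl fun i _ => ?_
        rw [Pi.smul_apply, smul_eq_mul]
        congr 1
        exact hfa i x y
      have h4 : χ y = ∑ k, c k * h k y := by
        conv_lhs => rw [hc]
        rw [Finset.sum_apply]
        rfl
      rw [hmul, h4] at h3
      simp only [Finset.sum_apply, Pi.smul_apply, smul_eq_mul, sub_mul, Finset.sum_sub_distrib,
        Pi.zero_apply]
      rw [sub_eq_zero]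
      calc ∑ k, χ x * c k * h k y = χ x * ∑ k, c k * h k y := by
            rw [Finset.mul_sum]
            exact Finset.sum_congr rfl fun k _ => by ring
        _ = ∑ i, c i * ∑ k, a i k x * h k y := h3
        _ = ∑ i, ∑ k, c i * a i k x * h k y := by
            refine Finset.sum_congr rfl fun i _ => ?_
            rw [Finset.mul_sum]
            exact Finset.sum_congr rfl fun k _ => by ring
        _ = ∑ k, ∑ i, c i * a i k x * h k y := Finset.sum_comm
        _ = _ := by
            refine Finset.sum_congr rfl fun k _ => ?_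
            rw [Finset.sum_mul]
    exact sub_eq_zero.mp (Fintype.linearIndependent_iff.mp hb.li _ h2 k)
  have h2 : ∀ k j, c j * c k = ∑ i, c i * (γ i k j : Ω) := by
    intro k j
    have h3 : ∑ j, (c j * c k - ∑ i, c i * (γ i k j : Ω)) • h j = 0 := by
      funext x
      have h4 := h1 k x
      have h5 : χ x = ∑ j, c j * h j x := by
        conv_lhs => rw [hc]
        rw [Finset.sum_apply]
        rfl
      have h6 : ∀ i, a i k x = ∑ j, (γ i k j : Ω) * h j x := by
        intro i
        conv_lhs => rw [hγ i k]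
        rw [Finset.sum_apply]
        refine Finset.sum_congr rfl fun j _ => ?_
        rw [Pi.smul_apply, Algebra.smul_def]
        rfl
      simp only [h5, h6] at h4
      simp only [Finset.sum_apply, Pi.smul_apply, smul_eq_mul, sub_mul, Finset.sum_sub_distrib,
        Pi.zero_apply]
      rw [sub_eq_zero]
      calc ∑ j, c j * c k * h j x = (∑ j, c j * h j x) * c k := by
            rw [Finset.sum_mul]
            exact Finset.sum_congr rfl fun k _ => by ring
        _ = ∑ i, c i * ∑ j, (γ i k j : Ω) * h j x := h4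
        _ = ∑ i, ∑ j, c i * (γ i k j : Ω) * h j x := by
            refine Finset.sum_congr rfl fun i _ => ?_
            rw [Finset.mul_sum]
            exact Finset.sum_congr rfl fun k _ => by ring
        _ = ∑ j, ∑ i, c i * (γ i k j : Ω) * h j x := Finset.sum_comm
        _ = _ := by
            refine Finset.sum_congr rfl fun k _ => ?_
            rw [Finset.sum_mul]
    exact sub_eq_zero.mp (Fintype.linearIndependent_iff.mp hb.li _ h3 j)
  -- integrality
  have h3 : ∀ i, c i ∈ A := by
    intro i₀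
    obtain ⟨k, -, hk⟩ := Finset.exists_max_image Finset.univ (fun i => A.valuation (c i))
      ⟨i₀, Finset.mem_univ _⟩
    rw [← A.valuation_le_one_iff]
    refine (hk i₀ (Finset.mem_univ _)).trans ?_
    by_contra hlt
    rw [not_le] at hlt
    have h4 : A.valuation (c k * c k) ≤ A.valuation (c k) := by
      rw [h2 k k]
      refine Valuation.map_sum_le _ fun i _ => ?_
      rw [map_mul]
      exact (mul_le_of_le_one_right' ((A.valuation_le_one_iff _).mpr (γ i k k).2.1)).trans
        (hk i (Finset.mem_univ _))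
    rw [map_mul] at h4
    have h5 : A.valuation (c k) ≠ 0 := (zero_lt_one.trans hlt).ne'
    have h6 : A.valuation (c k) * 1 < A.valuation (c k) * A.valuation (c k) :=
      mul_lt_mul_of_pos_left hlt (zero_lt_iff.mpr h5)
    rw [mul_one] at h6
    exact absurd h4 (not_le.mpr h6)
  have h4 : χ = ∑ i, (⟨c i, h3 i, hcfix i⟩ : fixA G A) • h i := by
    rw [hc]
    refine Finset.sum_congr rfl fun i _ => ?_
    funext v
    rw [Pi.smul_apply, Pi.smul_apply, Algebra.smul_def]
    rfl
  rw [h4]
  exact sum_mem fun i _ => H.smul_mem (hb.mem i) _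

section Coef

variable [CharZero Ω] {V : Type*} [AddCommGroup V] [Finite V]

/-- the component of a function along a character -/
def cf (L : AddSubgroup V) (χ : L → Ω) (f : V → Ω) (w : V) : Ω :=
  (Nat.card L : Ω)⁻¹ * ∑ᶠ x : L, f (w + x) * χ (-x)

theorem cf_eq (L : AddSubgroup V) [Fintype L] (χ : L → Ω) (f : V → Ω) (w : V) :
    cf L χ f w = (Nat.card L : Ω)⁻¹ * ∑ x : L, f (w + x) * χ (-x) := by
  rw [cf, finsum_eq_sum_of_fintype]

theorem cf_add {L : AddSubgroup V} {χ : L → Ω} (hmul : ∀ x y, χ (x + y) = χ x * χ y)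
    (f : V → Ω) (w : V) (x : L) (h0 : χ 0 = 1) : cf L χ f (w + x) = χ x * cf L χ f w := by
  haveI := Fintype.ofFinite L
  rw [cf_eq, cf_eq, mul_left_comm]
  congr 1
  rw [Finset.mul_sum]
  refine Fintype.sum_equiv (Equiv.addLeft x) _ _ fun y => ?_
  change f (w + x + y) * χ (-y) = χ x * (f (w + (x + y)) * χ (-(x + y)))
  have h1 : χ x * χ (-(x + y)) = χ (-y) := by
    rw [← hmul]
    congr 1
    abel
  rw [add_assoc, ← h1]
  ring

variable [DistribMulAction G V]

theorem cf_mem (hU : Unr G A p) [IsPrincipalIdealRing (fixA G A)]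
    {H : Subalgebra (fixA G A) (V → Ω)} (hH : IsHopfOrder (fixA G A) G H)
    (hval : ∀ f ∈ H, ∀ w, f w ∈ A) (L : AddSubgroup V)
    (hst : ∀ g : G, ∀ x ∈ L, g • x ∈ AddSubgroup.zmultiples x) (hred : L ≤ red A H) {n : ℕ}
    (hpow : ∀ x ∈ L, p ^ n • x = 0) {χ : L → Ω} (hmul : ∀ x y, χ (x + y) = χ x * χ y)
    (hχG : ∀ (g : G) (x y : L), (y : V) = g • (x : V) → χ y = g • χ x) {f : V → Ω} (hf : f ∈ H) :
    cf L χ f ∈ H := by
  haveI := Fintype.ofFinite L
  have hL : ∀ g : G, ∀ x ∈ L, g • x ∈ L := by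
    intro g x hx
    have h2 : AddSubgroup.zmultiples x ≤ L := by rw [AddSubgroup.zmultiples_le]; exact hx
    exact h2 (hst g x hx)
  letI := subAct G L hL
  have hGL : ∀ (g : G) (x : L), L.subtype (g • x) = g • L.subtype x := fun _ _ => rfl
  have hHL := hopf_res hH L.subtype L.subtype_injective hGL
  set HL : Subalgebra (fixA G A) (L → Ω) := H.map (pull (fixA G A) L.subtype) with hHLdef
  have hvalL : ∀ f ∈ HL, ∀ w, f w ∈ A := by
    rintro _ ⟨f, hf, rfl⟩ w
    exact hval f hf _
  have hredL : ∀ x : L, x ∈ red A HL := fun x =>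
    (mem_red_res hH hval L.subtype L.subtype_injective hGL).mpr (hred x.2)
  -- the inverse character
  have hχ' : (fun x : L => χ (-x)) ∈ HL := by
    refine char_mem hHL (fun x y => ?_) fun g x => ?_
    · change χ (-(x + y)) = χ (-x) * χ (-y)
      rw [← hmul]
      congr 1
      abel
    · refine hχG g (-x) (-(g • x)) ?_
      change -(g • (x : V)) = g • (-(x : V))
      rw [smul_neg]
  obtain ⟨m, a, b, ha, hb, h⟩ := mem_tens₂_iff.mp (hH.comul f hf)
  have h' : ∀ x y, f (x + y) = ∑ i, a i x * b i y := h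
  let β : Fin m → L → Ω := fun i x => b i x * χ (-x)
  have hβ : ∀ i, β i ∈ HL := fun i => mul_mem (s := HL) ⟨b i, hb i, rfl⟩ hχ'
  have hT : ∀ i, tr (⊤ : AddSubgroup L) (β i) ∈ HL := by
    intro i
    refine tr_mem hU (Nat.card (⊤ : AddSubgroup L)) hHL hvalL ⊤ le_rfl ?_ ?_ (n := n) ?_ (hβ i)
    · intro g x _
      obtain ⟨z, hz⟩ := AddSubgroup.mem_zmultiples_iff.mp (hst g x x.2)
      rw [AddSubgroup.mem_zmultiples_iff]
      exact ⟨z, Subtype.ext hz⟩
    · intro x _
      exact hredL x
    · intro x _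
      exact Subtype.ext (hpow x x.2)
  have hr : ∀ i, tr (⊤ : AddSubgroup L) (β i) 0 ∈ fixA G A := by
    intro i
    refine ⟨hvalL _ (hT i) 0, fun g => ?_⟩
    rw [← hHL.equiv g _ (hT i), smul_zero]
  have h1 : cf L χ f = ∑ i, (⟨tr (⊤ : AddSubgroup L) (β i) 0, hr i⟩ : fixA G A) • a i := by
    funext w
    rw [cf_eq, Finset.sum_apply]
    have h2 : ∀ x : L, f (w + x) * χ (-x) = ∑ i, a i w * β i x := by
      intro x
      rw [h', Finset.sum_mul]
      exact Finset.sum_congr rfl fun i _ => by rw [mul_assoc]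
    rw [Finset.sum_congr rfl fun x _ => h2 x, Finset.sum_comm, Finset.mul_sum]
    refine Finset.sum_congr rfl fun i _ => ?_
    rw [Pi.smul_apply, Algebra.smul_def]
    change _ = tr (⊤ : AddSubgroup L) (β i) 0 * a i w
    haveI := Fintype.ofFinite (⊤ : AddSubgroup L)
    have h3 : tr (⊤ : AddSubgroup L) (β i) 0 = (Nat.card L : Ω)⁻¹ * ∑ x : L, β i x := by
      rw [tr_eq, Nat.card_congr (AddSubgroup.topEquiv (G := L)).toEquiv]
      congr 1
      refine Fintype.sum_equiv (AddSubgroup.topEquiv (G := L)).toEquiv _ _ fun x => ?_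
      rw [zero_add]
      rfl
    rw [h3, ← Finset.mul_sum]
    ring
  rw [h1]
  exact sum_mem fun i _ => H.smul_mem (ha i) _

/-- **Some component along every character is a unit.** -/
theorem exists_unit_cf (hU : Unr G A p) [IsPrincipalIdealRing (fixA G A)]
    {H : Subalgebra (fixA G A) (V → Ω)} (hH : IsHopfOrder (fixA G A) G H)
    (hval : ∀ f ∈ H, ∀ w, f w ∈ A) (L : AddSubgroup V)
    (hst : ∀ g : G, ∀ x ∈ L, g • x ∈ AddSubgroup.zmultiples x) (hred : L ≤ red A H) {n : ℕ}
    (hpow : ∀ x ∈ L, p ^ n • x = 0) {χ : L → Ω} (hmul : ∀ x y, χ (x + y) = χ x * χ y)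
    (h0 : χ 0 = 1)
    (hχG : ∀ (g : G) (x y : L), (y : V) = g • (x : V) → χ y = g • χ x) (v : V) :
    ∃ f ∈ H, A.valuation (cf L χ f v) = 1 := by
  haveI := Fintype.ofFinite L
  have hL : ∀ g : G, ∀ x ∈ L, g • x ∈ L := by
    intro g x hx
    have h2 : AddSubgroup.zmultiples x ≤ L := by rw [AddSubgroup.zmultiples_le]; exact hx
    exact h2 (hst g x hx)
  letI := subAct G L hL
  have hGL : ∀ (g : G) (x : L), L.subtype (g • x) = g • L.subtype x := fun _ _ => rfl
  have hHL := hopf_res hH L.subtype L.subtype_injective hGL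
  have hχ : χ ∈ (H.map (pull (fixA G A) L.subtype) : Subalgebra (fixA G A) (L → Ω)) :=
    char_mem hHL hmul fun g x => hχG g x (g • x) rfl
  obtain ⟨B, hB, hBχ⟩ := hχ
  have hBχ' : ∀ x : L, B x = χ x := fun x => congrFun hBχ x
  obtain ⟨m, a, b, ha, hb, h⟩ := mem_tens₂_iff.mp (hH.comul B hB)
  have h' : ∀ x y, B (x + y) = ∑ i, a i x * b i y := h
  have h1 : ∑ i, cf L χ (a i) v * b i (-v) = 1 := by
    have h2 : ∀ x : L, χ x = ∑ i, a i (v + x) * b i (-v) := by
      intro x
      rw [← h', ← hBχ']
      congr 1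
      abel
    have h3 : ∀ i, cf L χ (a i) v * b i (-v) =
        (Nat.card L : Ω)⁻¹ * ∑ x : L, (a i (v + x) * b i (-v)) * χ (-x) := by
      intro i
      rw [cf_eq, mul_assoc, Finset.sum_mul]
      congr 1
      exact Finset.sum_congr rfl fun x _ => by ring
    rw [Finset.sum_congr rfl fun i _ => h3 i, ← Finset.mul_sum, Finset.sum_comm]
    have h4 : ∀ x : L, ∑ i, a i (v + x) * b i (-v) * χ (-x) = 1 := by
      intro x
      rw [← Finset.sum_mul, ← h2, ← hmul, add_neg_cancel, h0]
    rw [Finset.sum_congr rfl fun x _ => h4 x, Finset.sum_const, Finset.card_univ,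
      ← Nat.card_eq_fintype_card, nsmul_eq_mul, mul_one]
    exact inv_mul_cancel₀ (card_ne L)
  by_contra hcon
  push Not at hcon
  have h2 : ∀ i, A.valuation (cf L χ (a i) v) < 1 := by
    intro i
    have h3 := hval _ (cf_mem hU hH hval L hst hred hpow hmul hχG (ha i)) v
    exact lt_of_le_of_ne ((A.valuation_le_one_iff _).mpr h3) (hcon _ (ha i))
  have h3 : A.valuation (∑ i, cf L χ (a i) v * b i (-v)) < 1 := by
    refine Valuation.map_sum_lt _ one_ne_zero fun i _ => ?_
    rw [map_mul]
    exact (mul_le_of_le_one_right' ((A.valuation_le_one_iff _).mpr (hval _ (hb i) _))).trans_lt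
      (h2 i)
  rw [h1, map_one] at h3
  exact lt_irrefl _ h3

/-- **Peu ramifié.** The group `V` is trivialised by the `p`-power roots of units. -/
theorem smul_eq_of_fixes (hU : Unr G A p) [IsPrincipalIdealRing (fixA G A)]
    {H : Subalgebra (fixA G A) (V → Ω)} (hH : IsHopfOrder (fixA G A) G H)
    (hval : ∀ f ∈ H, ∀ w, f w ∈ A) (L : AddSubgroup V) {n : ℕ} (e : G → ℕ)
    (he : ∀ (g : G) (ζ : Ω), ζ ^ p ^ n = 1 → g • ζ = ζ ^ e g)
    (hL : ∀ (g : G), ∀ x ∈ L, g • x = e g • x)
    (hpow : ∀ x ∈ L, p ^ n • x = 0)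
    (hred : L ≤ red A H) (hq : ∀ (g : G) v, g • v - v ∈ L)
    [IsSepClosed Ω] (τ : G)
    (hτ : ∀ y : Ω, A.valuation y = 1 → (∀ g : G, g • y ^ p ^ n = y ^ p ^ n) → τ • y = y) (v : V) :
    τ • v = v := by
  haveI := Fintype.ofFinite L
  set l : L := ⟨τ • v - v, hq τ v⟩ with hl
  have hst : ∀ g : G, ∀ x ∈ L, g • x ∈ AddSubgroup.zmultiples x := by
    intro g x hx
    rw [hL g x hx, AddSubgroup.mem_zmultiples_iff]
    exact ⟨e g, natCast_zsmul _ _⟩
  have hpn : p ^ n ≠ 0 := pow_ne_zero _ hU.prime.ne_zero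
  -- characters kill `l`
  have key : ∀ φ : Multiplicative L →* Ωˣ, φ (Multiplicative.ofAdd l) = 1 := by
    intro φ
    let χ : L → Ω := fun x => (φ (Multiplicative.ofAdd x) : Ω)
    have hmul : ∀ x y, χ (x + y) = χ x * χ y := by
      intro x y
      change ((φ (Multiplicative.ofAdd (x + y)) : Ωˣ) : Ω) = _
      rw [ofAdd_add, map_mul, Units.val_mul]
    have h0 : χ 0 = 1 := by
      change ((φ (Multiplicative.ofAdd 0) : Ωˣ) : Ω) = 1
      rw [ofAdd_zero, map_one, Units.val_one]
    have hχn : ∀ (x : L) (k : ℕ), χ (k • x) = χ x ^ k := by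
      intro x k
      change ((φ (Multiplicative.ofAdd (k • x)) : Ωˣ) : Ω) = _
      rw [ofAdd_nsmul, map_pow, Units.val_pow_eq_pow_val]
    have hχpow : ∀ x, χ x ^ p ^ n = 1 := by
      intro x
      have h1 : p ^ n • x = 0 := Subtype.ext (hpow x x.2)
      rw [← hχn, h1, h0]
    have hχG : ∀ (g : G) (x y : L), (y : V) = g • (x : V) → χ y = g • χ x := by
      intro g x y hxy
      rw [he g _ (hχpow x), ← hχn]
      congr 1
      apply Subtype.ext
      rw [hxy, hL g x x.2]
      rfl
    obtain ⟨f, hf, hu⟩ := exists_unit_cf hU hH hval L hst hred hpow hmul h0 hχG v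
    have hfH := cf_mem hU hH hval L hst hred hpow hmul hχG hf
    -- the action of the group on the value
    have h1 : ∀ g : G, ∃ x : L, (x : V) = g • v - v ∧ g • cf L χ f v = χ x * cf L χ f v := by
      intro g
      refine ⟨⟨g • v - v, hq g v⟩, rfl, ?_⟩
      rw [← hH.equiv g _ hfH, ← cf_add hmul f v _ h0]
      congr 1
      change g • v = v + (g • v - v)
      abel
    have h2 := hτ (cf L χ f v) hu fun g => by
      obtain ⟨x, -, hx⟩ := h1 g
      rw [smul_pow', hx, mul_pow, hχpow, one_mul]
    obtain ⟨x, hxl, hx⟩ := h1 τ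
    have hxl' : x = l := Subtype.ext hxl
    rw [hxl', h2] at hx
    have hne : cf L χ f v ≠ 0 := by
      intro h
      rw [h, map_zero] at hu
      exact zero_ne_one hu
    have h3 : χ l = 1 := by
      have h4 : χ l * cf L χ f v = 1 * cf L χ f v := by rw [one_mul]; exact hx.symm
      exact mul_right_cancel₀ hne h4
    exact Units.ext h3
  have hl0 : l = 0 := by
    by_contra hne
    have hexp : Monoid.exponent (Multiplicative L) ∣ p ^ n := by
      refine Monoid.exponent_dvd_of_forall_pow_eq_one fun x => ?_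
      have h1 : p ^ n • (Multiplicative.toAdd x) = 0 := Subtype.ext (hpow _ (Multiplicative.toAdd x).2)
      exact congrArg Multiplicative.ofAdd h1
    haveI : NeZero ((Monoid.exponent (Multiplicative L) : ℕ) : Ω) := by
      refine ⟨?_⟩
      have h1 : Monoid.exponent (Multiplicative L) ≠ 0 := fun h0 => hpn (by
        rw [h0, zero_dvd_iff] at hexp
        exact hexp)
      exact_mod_cast h1
    have hne' : Multiplicative.ofAdd l ≠ 1 := fun h => hne (Multiplicative.ofAdd.injective h)
    obtain ⟨φ, hφ⟩ := CommGroup.exists_apply_ne_one_of_hasEnoughRootsOfUnity (Multiplicative L) Ω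
      hne'
    exact hφ (key φ)
  have h1 := congrArg Subtype.val hl0
  exact sub_eq_zero.mp h1

end Coef

end Fermat.Agent.FO
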