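import Mathlib
import Fermat.Agent.FO.Char
import Fermat.Agent.Conn.Main

/-!
# Flat ordinary representations are peu ramifiées
-/

set_option autoImplicit false
set_option linter.unusedSectionVars false
set_option linter.style.haveILetI false

noncomputable section

namespace Fermat.Agent.FO

open Module Fermat.Agent.Flat Fermat.Agent.Conn Fermat.Agent.LG Fermat.Agent.GaloisBasics
  Fermat.Agent.Inertia Fermat.Agent.EC IsLocalRing

/-- The field of algebraic numbers. -/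
local notation "Qb" => AlgebraicClosure ℚ
/-- The absolute Galois group. -/
local notation "GQ" => (AlgebraicClosure ℚ ≃ₐ[ℚ] AlgebraicClosure ℚ)

variable {A : ValuationSubring Qb} {p : ℕ}

/-- exponent of the action on roots of unity -/
theorem exists_expQ (hp : p.Prime) (n : ℕ) (σ : GQ) :
    ∃ e : ℕ, ∀ ζ : Qb, ζ ^ p ^ n = 1 → σ ζ = ζ ^ e := by
  haveI : NeZero (p ^ n) := ⟨pow_ne_zero _ hp.ne_zero⟩
  haveI : NeZero ((p ^ n : ℕ) : Qb) := ⟨by exact_mod_cast pow_ne_zero n hp.ne_zero⟩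
  obtain ⟨z, hz⟩ := HasEnoughRootsOfUnity.exists_primitiveRoot Qb (p ^ n)
  obtain ⟨e, -, he⟩ := hz.eq_pow_of_pow_eq_one (ξ := σ z) (by
    rw [← map_pow, hz.pow_eq_one, map_one])
  refine ⟨e, fun ζ hζ => ?_⟩
  obtain ⟨i, -, rfl⟩ := hz.eq_pow_of_pow_eq_one hζ
  rw [map_pow, ← he, ← pow_mul, ← pow_mul, mul_comm]

variable {T : Type} [CommRing T] [IsLocalRing T] (ρ : GaloisRepAdic T)

/-- the determinant on the line -/
theorem det_of_line {b : Basis (Fin 2) T ρ.V} {σ : GQ} {a : T} (h0 : ρ.ρ σ (b 0) = a • b 0)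
    (h1 : ∀ v, ρ.ρ σ v - v ∈ T ∙ b 0) : LinearMap.det (ρ.ρ σ) = a := by
  obtain ⟨c, hc⟩ := Submodule.mem_span_singleton.mp (h1 (b 1))
  have h2 : ρ.ρ σ (b 1) = c • b 0 + b 1 := by rw [hc]; abel
  rw [← LinearMap.det_toMatrix b, Matrix.det_fin_two]
  simp only [LinearMap.toMatrix_apply, h0, h2, map_add, map_smul, Finsupp.add_apply,
    Finsupp.smul_apply, Basis.repr_self, smul_eq_mul]
  simp

/-- **Flat ordinary representations are trivialised by the roots of units.** -/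
theorem rep_eq_one [IsNoetherianRing T] (hp : p.Prime) (hp2 : p ≠ 2)
    (hflat : ρ.IsFlatAt p) (hord : ρ.IsOrdinaryAt p) (hdet : ρ.DetIsCyclotomic p)
    (hA : A.LiesOverPrime p) {τ : GQ} (hτ : τ ∈ A.inertiaSubgroupIn ℚ)
    (hτY : ∀ y : Qb, A.valuation y = 1 →
      (∃ n, ∀ σ ∈ A.inertiaSubgroupIn ℚ, σ (y ^ p ^ n) = y ^ p ^ n) → τ y = y) : ρ.ρ τ = 1 := by
  classical
  set 𝔪 := maximalIdeal T with h𝔪
  have hpm : (p : T) ∈ 𝔪 := hdet.1
  obtain ⟨L, ⟨b, hL⟩, hLD, hLI⟩ := hord A hA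
  have hres : Finite (T ⧸ 𝔪) := hflat.1
  have hdvr := isDVR_OI hp hA
  have hU := unr_inertia hp hA
  -- the statement at each level
  have key : ∀ (k : ℕ) (v : ρ.V), ρ.ρ τ v - v ∈ 𝔪 ^ k • (⊤ : Submodule T ρ.V) := by
    intro k
    have hfinT : Finite (T ⧸ 𝔪 ^ k) := Ideal.finite_quotient_pow (IsNoetherian.noetherian 𝔪) _
    set V := Lev ρ (𝔪 ^ k) with hV
    set π := toLev ρ (𝔪 ^ k) with hπ
    have hπs : Function.Surjective π := toLev_surjective ρ _
    have hkill : ∀ t ∈ 𝔪 ^ k, ∀ v : V, t • v = 0 := by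
      intro t ht v
      obtain ⟨m, rfl⟩ := hπs v
      rw [← map_smul]
      exact (toLev_eq_zero ρ _).mpr (Submodule.smul_mem_smul ht Submodule.mem_top)
    have hfinV : Finite V := by
      let g : (Fin 2 → T ⧸ 𝔪 ^ k) → V := fun x => ∑ i, (x i).out • π (b i)
      refine Finite.of_surjective g fun v => ?_
      obtain ⟨m, rfl⟩ := hπs v
      refine ⟨fun i => Ideal.Quotient.mk _ (b.repr m i), ?_⟩
      conv_rhs => rw [← b.sum_repr m]
      rw [map_sum]
      refine Finset.sum_congr rfl fun i _ => ?_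
      rw [map_smul, ← sub_eq_zero, ← sub_smul]
      refine hkill _ ?_ _
      rw [← Ideal.Quotient.mk_eq_mk_iff_sub_mem]
      exact Quotient.out_eq _
    have hpT : ((p ^ k : ℕ) : T) ∈ 𝔪 ^ k := by
      rw [Nat.cast_pow]
      exact Ideal.pow_mem_pow hpm _
    have hpow : ∀ v : V, p ^ k • v = 0 := by
      intro v
      rw [← Nat.cast_smul_eq_nsmul T]
      exact hkill _ hpT v
    obtain ⟨H, hH⟩ := isFlat_inertia hp hA (isFlat_lev ρ (𝔪 ^ k) hflat hfinT)
    have hval : ∀ f ∈ H, ∀ w, f w ∈ A := fun f hf w => hH.value_mem hf w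
    -- the line
    let Lk : AddSubgroup V := (L.map π).toAddSubgroup
    have hmemL : ∀ x : ρ.V, x ∈ L → π x ∈ Lk := fun x hx => ⟨x, hx, rfl⟩
    choose e₀ he₀ using fun σ : GQ => exists_expQ hp k σ
    have hact : ∀ (σ : GQ) (hσ : σ ∈ A.inertiaSubgroupIn ℚ) (e : ℕ)
        (he : ∀ ζ : Qb, ζ ^ p ^ k = 1 → σ ζ = ζ ^ e), ∀ x ∈ Lk, σ • x = e • x := by
      rintro σ hσ e he _ ⟨x, hx, rfl⟩
      have hx' : x ∈ T ∙ b 0 := by rw [← hL]; exact hx
      obtain ⟨t, rfl⟩ := Submodule.mem_span_singleton.mp hx'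
      have hb0 : b 0 ∈ L := by rw [hL]; exact Submodule.mem_span_singleton_self _
      have h1 := hLD σ (inertia_le_decomp hσ) (b 0) hb0
      rw [hL] at h1
      obtain ⟨a, ha⟩ := Submodule.mem_span_singleton.mp h1
      have h2 : LinearMap.det (ρ.ρ σ) = a := det_of_line ρ ha.symm fun v => by
        rw [← hL]; exact hLI σ hσ v
      have h3 := hdet.2 k σ e he
      rw [h2] at h3
      have h4 : a - (e : T) ∈ 𝔪 ^ k :=
        (Ideal.span_singleton_le_iff_mem _).mpr hpT h3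
      have h5 : σ • π (t • b 0) = π (a • t • b 0) := by
        rw [smul_toLev, map_smul, ← ha, smul_comm]
      have h6 : (a - (e : T)) • π (t • b 0) = 0 := hkill _ h4 _
      rw [h5, map_smul, ← Nat.cast_smul_eq_nsmul T, ← sub_eq_zero, ← sub_smul]
      exact h6
    have hred : Lk ≤ red A H := by
      intro x hx
      obtain ⟨σ, hσ, a, ha, hna⟩ := exists_cyc_exponent hp hp2 hA
      -- a compatible exponent
      obtain ⟨e, he⟩ := exists_expQ hp (k + 1) σ
      have he1 : ∀ ζ : Qb, ζ ^ p ^ k = 1 → σ ζ = ζ ^ e := fun ζ hζ => he ζ (by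
        rw [pow_succ, pow_mul, hζ, one_pow])
      have h1 : (⟨σ, hσ⟩ : A.inertiaSubgroupIn ℚ) • x - x ∈ red A H :=
        smul_sub_mem_red hH hval hU.res _ x
      have h2 : (⟨σ, hσ⟩ : A.inertiaSubgroupIn ℚ) • x = e • x := hact σ hσ e he1 x hx
      rw [h2] at h1
      have h3 : ((e : ℤ) - 1) • x ∈ red A H := by
        rw [sub_smul, one_smul, natCast_zsmul]
        exact h1
      have h4 : ¬ (p : ℤ) ∣ (e : ℤ) - 1 := by
        intro hdvd
        apply hna
        haveI : NeZero p := ⟨hp.ne_zero⟩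
        obtain ⟨ζ, hζ⟩ := HasEnoughRootsOfUnity.exists_primitiveRoot Qb p
        have h5 : σ ζ = ζ ^ a := ha ζ (by rw [pow_one]; exact hζ.pow_eq_one)
        have h6 : σ ζ = ζ ^ e := he ζ (by
          rw [pow_succ', pow_mul, hζ.pow_eq_one, one_pow])
        have hζ0 : ζ ≠ 0 := hζ.ne_zero hp.ne_zero
        rw [h6] at h5
        have h7 : ζ ^ ((e : ℤ) - a) = 1 := by
          rw [zpow_sub₀ hζ0, zpow_natCast, zpow_natCast, h5, div_self (pow_ne_zero _ hζ0)]
        have h8 := (hζ.zpow_eq_one_iff_dvd _).mp h7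
        have h9 := dvd_sub hdvd h8
        have h10 : (e : ℤ) - 1 - ((e : ℤ) - a) = a - 1 := by ring
        rwa [h10] at h9
      have h5 : IsCoprime ((e : ℤ) - 1) ((p ^ k : ℕ) : ℤ) := by
        rw [Nat.cast_pow]
        apply IsCoprime.pow_right
        rw [isCoprime_comm]
        exact (Nat.prime_iff_prime_int.mp hp).coprime_iff_not_dvd.mpr h4
      obtain ⟨u, w, huw⟩ := h5
      have h6 : x = u • ((e : ℤ) - 1) • x := by
        conv_lhs => rw [← one_zsmul x, ← huw, add_smul, mul_smul, mul_smul, natCast_zsmul, hpow,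
          smul_zero, add_zero]
      rw [h6]
      exact AddSubgroup.zsmul_mem _ h3 u
    intro v
    have h1 := smul_eq_of_fixes hU hH hval Lk (n := k) (fun g => e₀ (g : GQ))
      (fun g ζ hζ => he₀ g ζ hζ) (fun g x hx => hact g g.2 _ (he₀ g) x hx)
      (fun x _ => hpow x) hred (fun g v => ?_) ⟨τ, hτ⟩ (fun y hy h => ?_) (π v)
    · have h2 : π (ρ.ρ τ v - v) = 0 := by
        rw [map_sub]
        exact sub_eq_zero.mpr h1
      exact (toLev_eq_zero ρ _).mp h2
    · obtain ⟨m, rfl⟩ := hπs v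
      have h2 : g • π m - π m = π (ρ.ρ (g : GQ) m - m) := by
        rw [map_sub]
        rfl
      rw [h2]
      exact hmemL _ (hLI g g.2 m)
    · exact hτY y hy ⟨k, fun σ hσ => h ⟨σ, hσ⟩⟩
  -- Krull
  refine LinearMap.ext fun v => ?_
  rw [Module.End.one_apply, ← sub_eq_zero]
  have h1 : ∀ i, b.repr (ρ.ρ τ v - v) i = 0 := by
    intro i
    have h2 : b.repr (ρ.ρ τ v - v) i ∈ (⨅ j : ℕ, 𝔪 ^ j : Ideal T) := by
      rw [Ideal.mem_iInf]
      intro j
      exact repr_mem_of_smul_top b (key j v) i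
    rw [Ideal.iInf_pow_eq_bot_of_isLocalRing _ (maximalIdeal.isMaximal T).ne_top] at h2
    exact h2
  exact b.ext_elem fun i => by rw [h1 i, map_zero, Finsupp.zero_apply]

end Fermat.Agent.FO
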